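import Mathlib
import Fermat.Agent.Gal.Places

/-!
# Integers in a valuation ring over 2, and elements approximable by them
-/

set_option autoImplicit false

namespace Fermat.Agent.SwitchFive

local notation "Qbar" => AlgebraicClosure ℚ

variable {A : ValuationSubring Qbar}

theorem mem_nonunits_iff_not_isUnit (x : A) : (x : Qbar) ∈ A.nonunits ↔ ¬ IsUnit x :=
  ValuationSubring.coe_mem_nonunits_iff.trans (IsLocalRing.mem_maximalIdeal x)

/-- `x` is a limit of integers for the 2-adic filtration of `A`. -/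
def Approx (x : A) : Prop := ∀ n : ℕ, ∃ q : ℤ, (2 : A) ^ n ∣ x - (q : A)

theorem approx_intCast (z : ℤ) : Approx (A := A) (z : A) := fun n => ⟨z, by simp⟩

theorem approx_ofNat (k : ℕ) [k.AtLeastTwo] : Approx (A := A) (OfNat.ofNat k : A) := fun n =>
  ⟨(OfNat.ofNat k : ℤ), by simp⟩

theorem approx_one : Approx (A := A) (1 : A) := fun n => ⟨1, by simp⟩

theorem Approx.add {x y : A} (hx : Approx x) (hy : Approx y) : Approx (x + y) := fun n => by
  obtain ⟨q, hq⟩ := hx n
  obtain ⟨r, hr⟩ := hy n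
  refine ⟨q + r, ?_⟩
  push_cast
  rw [add_sub_add_comm]
  exact hq.add hr

theorem Approx.neg {x : A} (hx : Approx x) : Approx (-x) := fun n => by
  obtain ⟨q, hq⟩ := hx n
  refine ⟨-q, ?_⟩
  push_cast
  rw [← neg_sub']
  exact hq.neg_right

theorem Approx.sub {x y : A} (hx : Approx x) (hy : Approx y) : Approx (x - y) := by
  rw [sub_eq_add_neg]; exact hx.add hy.neg

theorem Approx.mul {x y : A} (hx : Approx x) (hy : Approx y) : Approx (x * y) := fun n => by
  obtain ⟨q, hq⟩ := hx n
  obtain ⟨r, hr⟩ := hy n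
  refine ⟨q * r, ?_⟩
  push_cast
  rw [show x * y - (q : A) * r = (x - q) * y + q * (y - r) by ring]
  exact (hq.mul_right _).add (hr.mul_left _)

theorem Approx.pow {x : A} (hx : Approx x) : ∀ k : ℕ, Approx (x ^ k)
  | 0 => by rw [pow_zero]; exact approx_one
  | k + 1 => by rw [pow_succ]; exact (Approx.pow hx k).mul hx

variable (hA : A.LiesOverPrime 2)
include hA

theorem isUnit_intCast_iff (z : ℤ) : IsUnit (z : A) ↔ Odd z := by
  rw [← not_iff_not, ← mem_nonunits_iff_not_isUnit, Int.not_odd_iff_even, even_iff_two_dvd,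
    show ((z : A) : Qbar) = (z : Qbar) from map_intCast A.subtype z,
    Gal.intCast_mem_nonunits_iff A Nat.prime_two hA]
  rfl

theorem not_isUnit_two : ¬ IsUnit (2 : A) := fun h => by
  have := (isUnit_intCast_iff hA 2).1 (by simpa using h)
  exact absurd this (by decide)

theorem not_isUnit_of_two_dvd {x : A} (h : (2 : A) ∣ x) : ¬ IsUnit x := fun hx =>
  not_isUnit_two hA (isUnit_of_dvd_unit h hx)

/-- Adding a multiple of `2` keeps units units. -/
theorem isUnit_add_of_two_dvd {x y : A} (hx : IsUnit x) (hy : (2 : A) ∣ y) : IsUnit (x + y) := by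
  by_contra h
  have h1 := (IsLocalRing.nonunits_add (a := x + y) (b := -y) h
    (fun hu => not_isUnit_of_two_dvd hA hy (by simpa using hu.neg)))
  exact h1 (by simpa using hx)

theorem two_pow_dvd_intCast_iff (n : ℕ) (z : ℤ) : (2 : A) ^ n ∣ (z : A) ↔ (2 : ℤ) ^ n ∣ z := by
  refine ⟨fun h => ?_, fun h => by simpa using (Int.castRingHom A).map_dvd h⟩
  induction n generalizing z with
  | zero => simp
  | succ n ih =>
    have he : ¬ Odd z := fun ho => not_isUnit_of_two_dvd hA
      ((dvd_pow_self _ (by omega)).trans h) ((isUnit_intCast_iff hA z).2 ho)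
    obtain ⟨w, rfl⟩ := even_iff_two_dvd.1 (Int.not_odd_iff_even.1 he)
    rw [pow_succ', Int.cast_mul, Int.cast_ofNat] at h
    rw [pow_succ']
    exact mul_dvd_mul_left _ (ih w ((mul_dvd_mul_iff_left two_ne_zero).1 h))

theorem Approx.of_mul_eq_one {x y : A} (hx : Approx x) (h : x * y = 1) : Approx y := fun n => by
  obtain ⟨q, hq⟩ := hx (n + 1)
  have hqu : IsUnit (q : A) := by
    have e : (q : A) = x + -(x - q) := by ring
    rw [e]
    exact isUnit_add_of_two_dvd hA (IsUnit.of_mul_eq_one y h)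
      ((dvd_pow_self _ (by omega)).trans hq).neg_right
  have hco : IsCoprime q ((2 : ℤ) ^ n) := by
    obtain ⟨w, hw⟩ := (isUnit_intCast_iff hA q).1 hqu
    exact IsCoprime.pow_right ⟨1, -w, by rw [hw]; ring⟩
  obtain ⟨u, v, huv⟩ := hco
  refine ⟨u, ?_⟩
  have e : y - (u : A) = y * ((q - x) * u + v * 2 ^ n) := by
    have h' := congrArg (Int.cast : ℤ → A) huv
    push_cast at h'
    linear_combination -y * h' + (u : A) * h
  have h1 : (2 : A) ^ n ∣ (q : A) - x := by
    rw [← neg_sub]; exact ((pow_dvd_pow _ n.le_succ).trans hq).neg_right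
  rw [e]
  exact ((h1.mul_right _).add (dvd_mul_left _ _)).mul_left _

/-- A unit which is a limit of integers has square `≡ 1 (mod 4)`. -/
theorem Approx.four_dvd_sq_sub_one {x : A} (hx : Approx x) (hu : IsUnit x) :
    (4 : A) ∣ x ^ 2 - 1 := by
  obtain ⟨q, hq⟩ := hx 2
  have e : (q : A) = x + -(x - q) := by ring
  obtain ⟨w, hw⟩ := (isUnit_intCast_iff hA q).1
    (e ▸ isUnit_add_of_two_dvd hA hu ((dvd_pow_self _ two_ne_zero).trans hq).neg_right)
  rw [show (2 : A) ^ 2 = 4 by norm_num] at hq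
  have e2 : x ^ 2 - 1 = (x - q) * (x + q) + 4 * ((w : A) ^ 2 + w) := by
    rw [hw]; push_cast; ring
  rw [e2]
  exact (hq.mul_right _).add (dvd_mul_right _ _)

end Fermat.Agent.SwitchFive
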