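import Mathlib
import Fermat.Agent.SwitchFive.Place

/-!
# The parameter of the fibre near a cusp, 2-adically

`G = (x/y)⁵` for the point `(x, y)` over `(a, b)` near the cusp `x = 0` is the root in the maximal
ideal of `Δ h(G)³ + a³ G q(G)⁵`; it is a limit of integers.
-/

set_option autoImplicit false

open Polynomial

namespace Fermat.Agent.SwitchFive

local notation "Qbar" => AlgebraicClosure ℚ

section Forms

variable {R : Type*} [CommRing R]

/-- `hF` in the variable `(x/y)⁵`. -/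
def hG (G : R) : R := G ^ 4 - 228 * G ^ 3 + 494 * G ^ 2 + 228 * G + 1

/-- `-tF` in the variable `(x/y)⁵`. -/
def tG (G : R) : R := G ^ 6 + 522 * G ^ 5 - 10005 * G ^ 4 - 10005 * G ^ 2 - 522 * G + 1

/-- The cofactor of `dF` in the variable `(x/y)⁵`. -/
def qG (G : R) : R := G ^ 2 + 11 * G - 1

/-- The equation of `(x/y)⁵` over invariants `(a, b)` with `1728 Δ = a³ - b²`. -/
def gEq (Δ a G : R) : R := Δ * hG G ^ 3 + a ^ 3 * G * qG G ^ 5

theorem map_gEq {S : Type*} [CommRing S] (f : R →+* S) (Δ a G : R) :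
    f (gEq Δ a G) = gEq (f Δ) (f a) (f G) := by
  simp [gEq, hG, qG, map_ofNat]

theorem hG_cube_sub_tG_sq (G : R) : hG G ^ 3 - tG G ^ 2 = -1728 * G * qG G ^ 5 := by
  simp only [hG, tG, qG]; ring

theorem gEq_eq_zero_rel {Δ a b G : R} (hΔ : 1728 * Δ = a ^ 3 - b ^ 2) (h : gEq Δ a G = 0) :
    b ^ 2 * hG G ^ 3 = a ^ 3 * tG G ^ 2 := by
  have := hG_cube_sub_tG_sq G
  simp only [gEq] at h
  linear_combination -1728 * h + a ^ 3 * this + hG G ^ 3 * hΔ

theorem gEq_sub (Δ a u u' : R) : gEq Δ a u - gEq Δ a u' = (u - u') *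
    (Δ * ((u + u') * (u ^ 2 + u' ^ 2) - 228 * (u ^ 2 + u * u' + u' ^ 2) + 494 * (u + u') + 228)
        * (hG u ^ 2 + hG u * hG u' + hG u' ^ 2)
      + a ^ 3 * (qG u ^ 5 + u' * ((u + u' + 11) * (qG u ^ 4 + qG u ^ 3 * qG u'
        + qG u ^ 2 * qG u' ^ 2 + qG u * qG u' ^ 3 + qG u' ^ 4)))) := by
  simp only [gEq, hG, qG]; ring

end Forms

variable {A : ValuationSubring Qbar} (hA : A.LiesOverPrime 2)
include hA

theorem isUnit_qG {u : A} (hu : (2 : A) ∣ u) : IsUnit (qG u) := by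
  rw [qG, show u ^ 2 + 11 * u - 1 = -1 + u * (u + 11) by ring]
  exact isUnit_add_of_two_dvd hA isUnit_one.neg (hu.mul_right _)

variable {Δ a : ℤ} (hΔ : (2 : ℤ) ∣ Δ) (ha : Odd a)
include hΔ ha

theorem exists_factor {u u' : A} (hu : (2 : A) ∣ u) (hu' : (2 : A) ∣ u') :
    ∃ E : A, IsUnit E ∧ gEq (Δ : A) a u - gEq (Δ : A) a u' = (u - u') * E := by
  refine ⟨_, ?_, gEq_sub (Δ : A) a u u'⟩
  have h2Δ : (2 : A) ∣ (Δ : A) := by simpa using (Int.castRingHom A).map_dvd hΔ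
  rw [add_comm]
  refine isUnit_add_of_two_dvd hA (((isUnit_intCast_iff hA a).2 ha).pow 3 |>.mul ?_)
    ((h2Δ.mul_right _).mul_right _)
  exact isUnit_add_of_two_dvd hA ((isUnit_qG hA hu).pow 5) (hu'.mul_right _)

theorem exists_gEq_root : ∃ G : A, (G : Qbar) ∈ A.nonunits ∧ gEq (Δ : A) a G = 0 := by
  rcases eq_or_ne Δ 0 with rfl | hΔ0
  · refine ⟨0, (mem_nonunits_iff_not_isUnit _).2 not_isUnit_zero, by simp [gEq]⟩
  set p : Qbar[X] := C (Δ : Qbar) * (X ^ 4 - C 228 * X ^ 3 + C 494 * X ^ 2 + C 228 * X + 1) ^ 3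
    + C ((a : Qbar) ^ 3) * X * (X ^ 2 + C 11 * X - 1) ^ 5 with hp
  have hev : ∀ z, p.eval z = gEq (Δ : Qbar) a z := fun z => by simp [hp, gEq, hG, qG]
  have h0 : p.eval 0 = (Δ : Qbar) := by rw [hev]; simp [gEq, hG, qG]
  have h1 : p.coeff 1 = 684 * (Δ : Qbar) - (a : Qbar) ^ 3 := by
    have : p.coeff 1 = (derivative p).eval 0 := by
      rw [← coeff_zero_eq_eval_zero, coeff_derivative]; simp
    rw [this, hp]
    simp [derivative_pow]
    ring
  by_contra hno
  push Not at hno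
  have hp0 : p ≠ 0 := fun h => by
    rw [h, eval_zero] at h0
    exact hΔ0 (by exact_mod_cast h0.symm)
  -- every root has its inverse in `A`
  have hroot : ∀ r ∈ p.roots, r ≠ 0 ∧ r⁻¹ ∈ A := by
    intro r hr
    have hr0 : p.eval r = 0 := (mem_roots hp0).1 hr
    have hne : r ≠ 0 := fun h => by
      rw [h, h0] at hr0; exact hΔ0 (by exact_mod_cast hr0)
    refine ⟨hne, (A.mem_or_inv_mem r).elim (fun hrA => ?_) id⟩
    have hn : r ∉ A.nonunits := fun hn => hno ⟨r, hrA⟩ hn (by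
      apply Subtype.val_injective
      change A.subtype (gEq (Δ : A) a ⟨r, hrA⟩) = 0
      rw [map_gEq, map_intCast, map_intCast]
      exact (hev r).symm.trans hr0)
    rw [ValuationSubring.mem_nonunits_iff_or] at hn
    push Not at hn
    exact hn.2
  -- the product over the roots, normalised
  have key : ∀ s : Multiset Qbar, (∀ r ∈ s, r ≠ 0 ∧ r⁻¹ ∈ A) →
      ∃ c : Qbar, ∃ Q : A[X], Q.eval 0 = 1 ∧
        (s.map fun r => X - C r).prod = C c * Q.map A.subtype := by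
    intro s
    induction s using Multiset.induction_on with
    | empty => exact fun _ => ⟨1, 1, by simp, by simp⟩
    | cons r s ih =>
      intro hs
      obtain ⟨c, Q, hQ0, hQ⟩ := ih fun x hx => hs x (Multiset.mem_cons_of_mem hx)
      obtain ⟨hr, hrA⟩ := hs r (Multiset.mem_cons_self r s)
      refine ⟨-r * c, (1 - C ⟨r⁻¹, hrA⟩ * X) * Q, by simp [hQ0], ?_⟩
      rw [Multiset.map_cons, Multiset.prod_cons, hQ, Polynomial.map_mul, Polynomial.map_sub,
        Polynomial.map_one, Polynomial.map_mul, map_X, map_C, map_mul, map_neg]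
      have : C r * C ((A.subtype : A →+* Qbar) ⟨r⁻¹, hrA⟩) = 1 := by
        rw [← map_mul, ← map_one C]
        exact congrArg _ (mul_inv_cancel₀ hr)
      linear_combination (-(X : Qbar[X])) * (C c * Q.map A.subtype) * this
  obtain ⟨c, Q, hQ0, hQ⟩ := key p.roots hroot
  have hsp := (IsAlgClosed.splits p).eq_prod_roots
  rw [hQ, ← mul_assoc, ← map_mul] at hsp
  have hc : p.leadingCoeff * c = (Δ : Qbar) := by
    have := congrArg (eval 0) hsp
    rw [h0, eval_mul, eval_C, ← coeff_zero_eq_eval_zero (Q.map A.subtype), coeff_map,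
      coeff_zero_eq_eval_zero, hQ0, map_one, mul_one] at this
    exact this.symm
  have e1 := congrArg (fun P : Qbar[X] => P.coeff 1) hsp
  simp only [coeff_C_mul, coeff_map, h1, hc] at e1
  have h2Δ : (2 : A) ∣ (Δ : A) := by simpa using (Int.castRingHom A).map_dvd hΔ
  have e2 : (a : A) ^ 3 = (Δ : A) * (684 - Q.coeff 1) := by
    refine Subtype.val_injective ?_
    change A.subtype ((a : A) ^ 3) = A.subtype ((Δ : A) * (684 - Q.coeff 1))
    simp only [map_mul, map_sub, map_pow, map_intCast, map_ofNat]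
    linear_combination -e1
  exact not_isUnit_of_two_dvd hA (e2 ▸ h2Δ.mul_right _) (((isUnit_intCast_iff hA a).2 ha).pow 3)

omit hA in
/-- Integral approximations of the root. -/
theorem exists_gEq_approx (n : ℕ) : ∃ g : ℤ, 2 ∣ g ∧ (2 : ℤ) ^ (n + 1) ∣ gEq Δ a g := by
  induction n with
  | zero => exact ⟨0, dvd_zero _, by simpa [gEq, hG, qG] using hΔ⟩
  | succ n ih =>
    obtain ⟨g, hg, hd⟩ := ih
    by_cases h : (2 : ℤ) ^ (n + 2) ∣ gEq Δ a g
    · exact ⟨g, hg, h⟩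
    refine ⟨g + 2 ^ (n + 1), hg.add (dvd_pow_self _ (by omega)), ?_⟩
    obtain ⟨t, ht⟩ := hd
    have hto : Odd t := Int.not_even_iff_odd.1 fun he => h (by
      rw [ht, pow_succ (2 : ℤ) (n + 1)]; exact mul_dvd_mul_left _ (even_iff_two_dvd.1 he))
    have hE : ∀ u u' : ℤ, (2 : ℤ) ∣ u → (2 : ℤ) ∣ u' →
        Odd (Δ * ((u + u') * (u ^ 2 + u' ^ 2) - 228 * (u ^ 2 + u * u' + u' ^ 2) + 494 * (u + u')
          + 228) * (hG u ^ 2 + hG u * hG u' + hG u' ^ 2)
        + a ^ 3 * (qG u ^ 5 + u' * ((u + u' + 11) * (qG u ^ 4 + qG u ^ 3 * qG u'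
          + qG u ^ 2 * qG u' ^ 2 + qG u * qG u' ^ 3 + qG u' ^ 4)))) := by
      intro u u' hu hu'
      refine Even.add_odd (even_iff_two_dvd.2 ((hΔ.mul_right _).mul_right _)) (ha.pow.mul ?_)
      refine Odd.add_even (Odd.pow ?_) (even_iff_two_dvd.2 (hu'.mul_right _))
      rw [qG, show u ^ 2 + 11 * u - 1 = u * (u + 11) - 1 by ring]
      exact (even_iff_two_dvd.2 (hu.mul_right _)).sub_odd odd_one
    obtain ⟨w, hw⟩ := hto.add_odd (hE (g + 2 ^ (n + 1)) g (hg.add (dvd_pow_self _ (by omega))) hg)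
    refine ⟨w, ?_⟩
    have e := gEq_sub Δ a (g + 2 ^ (n + 1)) g
    rw [ht, add_sub_cancel_left] at e
    rw [pow_succ (2 : ℤ) (n + 1)]
    linear_combination e + (2 : ℤ) ^ (n + 1) * hw

/-- The root: in the maximal ideal, approximable by integers, and `Δ` times a unit. -/
theorem exists_cusp_root : ∃ G : A, (2 : A) ∣ G ∧ Approx G ∧ gEq (Δ : A) a G = 0 ∧
    ∃ w : A, IsUnit w ∧ G = (Δ : A) * w := by
  obtain ⟨G, hGn, hG0⟩ := exists_gEq_root hA hΔ ha
  have hqu : IsUnit (qG G) := by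
    rw [qG, show G ^ 2 + 11 * G - 1 = -1 + G * (G + 11) by ring]
    by_contra h
    refine IsLocalRing.nonunits_add (a := -1 + G * (G + 11)) (b := -(G * (G + 11))) h ?_ ?_
    · exact fun hu => (mem_nonunits_iff_not_isUnit G).1 hGn
        (isUnit_of_mul_isUnit_left (by simpa using hu.neg))
    · simp
  set D := (a : A) ^ 3 * qG G ^ 5 with hD
  have hDu : IsUnit D := (((isUnit_intCast_iff hA a).2 ha).pow 3).mul (hqu.pow 5)
  obtain ⟨D', hD'⟩ := hDu.exists_left_inv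
  have hGe : G = (Δ : A) * (-(hG G ^ 3) * D') := by
    simp only [gEq] at hG0
    linear_combination D' * hG0 - G * hD' + G * D' * hD
  have h2Δ : (2 : A) ∣ (Δ : A) := by simpa using (Int.castRingHom A).map_dvd hΔ
  have h2G : (2 : A) ∣ G := hGe ▸ h2Δ.mul_right _
  refine ⟨G, h2G, fun n => ?_, hG0, _, ?_, hGe⟩
  · obtain ⟨g, hg, hd⟩ := exists_gEq_approx hΔ ha n
    have hgA : (2 : A) ∣ (g : A) := by simpa using (Int.castRingHom A).map_dvd hg
    obtain ⟨E, hE, hfac⟩ := exists_factor hA hΔ ha h2G hgA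
    refine ⟨g, ?_⟩
    have hd' : (2 : A) ^ n ∣ gEq (Δ : A) a (g : A) := by
      have : (2 : A) ^ (n + 1) ∣ ((gEq Δ a g : ℤ) : A) := (two_pow_dvd_intCast_iff hA _ _).2 hd
      refine (pow_dvd_pow _ n.le_succ).trans ?_
      simpa [gEq, hG, qG] using this
    rw [hG0, zero_sub] at hfac
    exact (hE.dvd_mul_right).1 (hfac ▸ hd'.neg_right)
  · refine IsUnit.mul (IsUnit.pow 3 ?_).neg (IsUnit.of_mul_eq_one D hD')
    rw [hG, show G ^ 4 - 228 * G ^ 3 + 494 * G ^ 2 + 228 * G + 1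
      = 1 + G * (G ^ 3 - 228 * G ^ 2 + 494 * G + 228) by ring]
    exact isUnit_add_of_two_dvd hA isUnit_one (h2G.mul_right _)

end Fermat.Agent.SwitchFive
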