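import Mathlib
import Fermat.Agent.SwitchFive.CuspRoot
import Fermat.Agent.Switch.Pencil

/-!
# The pencil near a cusp at a place over 2

A fibre point near the cusp, and the parameters moving the member of the pencil to any depth
(`exists_pencil_of_root`), with the multiplicative case `exists_two_adic_pencil`.
-/

set_option autoImplicit false

namespace Fermat.Agent.SwitchFive

open Fermat.Agent.Switch

local notation "Qbar" => AlgebraicClosure ℚ

section Forms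

variable {R : Type*} [CommRing R]

/-- `hF` at `(xk, yu)` divided by `y²⁰`, with `G = (x/y)⁵`. -/
def hH (G k u : R) : R :=
  G ^ 4 * k ^ 20 - 228 * G ^ 3 * k ^ 15 * u ^ 5 + 494 * G ^ 2 * k ^ 10 * u ^ 10
    + 228 * G * k ^ 5 * u ^ 15 + u ^ 20

/-- `-tF` at `(xk, yu)` divided by `y³⁰`. -/
def tH (G k u : R) : R :=
  G ^ 6 * k ^ 30 + 522 * G ^ 5 * k ^ 25 * u ^ 5 - 10005 * G ^ 4 * k ^ 20 * u ^ 10
    - 10005 * G ^ 2 * k ^ 10 * u ^ 20 - 522 * G * k ^ 5 * u ^ 25 + u ^ 30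

/-- The cofactor of `dF` at `(xk, yu)`. -/
def qH (G k u : R) : R := G ^ 2 * k ^ 10 + 11 * G * k ^ 5 * u ^ 5 - u ^ 10

theorem hH_cube_sub_tH_sq (G k u : R) :
    hH G k u ^ 3 - tH G k u ^ 2 = -1728 * G * k ^ 5 * u ^ 5 * qH G k u ^ 5 := by
  simp only [hH, tH, qH]; ring

theorem map_hH {S : Type*} [CommRing S] (f : R →+* S) (G k u : R) :
    f (hH G k u) = hH (f G) (f k) (f u) := by
  simp [hH, map_ofNat]

theorem map_tH {S : Type*} [CommRing S] (f : R →+* S) (G k u : R) :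
    f (tH G k u) = tH (f G) (f k) (f u) := by
  simp [tH, map_ofNat]

theorem hF_near {x y G P k u : R} (hx : x ^ 5 = G * y ^ 5) (hy : y ^ 10 = P) :
    hF (x * k) (y * u) = P ^ 2 * hH G k u := by
  have e : hF (x * k) (y * u) = (x^5)^4*k^20 - 228*(x^5)^3*y^5*(k^15*u^5)
      + 494*(x^5)^2*(y^5)^2*(k^10*u^10) + 228*x^5*(y^5)^3*(k^5*u^15) + (y^5)^4*u^20 := by
    simp only [hF]; ring
  rw [e, hx, ← hy, hH]; ring

theorem tF_near {x y G P k u : R} (hx : x ^ 5 = G * y ^ 5) (hy : y ^ 10 = P) :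
    tF (x * k) (y * u) = -(P ^ 3 * tH G k u) := by
  have e : tF (x * k) (y * u) = -((x^5)^6*k^30 + 522*(x^5)^5*y^5*(k^25*u^5)
      - 10005*(x^5)^4*(y^5)^2*(k^20*u^10) - 10005*(x^5)^2*(y^5)^4*(k^10*u^20)
      - 522*x^5*(y^5)^5*(k^5*u^25) + (y^5)^6*u^30) := by
    simp only [tF]; ring
  rw [e, hx, ← hy, tH]; ring

theorem cov1_near {x y G P : R} (hx : x ^ 5 = G * y ^ 5) (hy : y ^ 10 = P) :
    cov1 x y = x * (-(P * (G ^ 2 + 66 * G - 11))) := by
  have e : cov1 x y = x * -((x^5)^2 + 66*x^5*y^5 - 11*(y^5)^2) := by simp only [cov1]; ring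
  rw [e, hx, ← hy]; ring

theorem cov2_near {x y G P : R} (hx : x ^ 5 = G * y ^ 5) (hy : y ^ 10 = P) :
    cov2 x y = y * (P * (11 * G ^ 2 + 66 * G - 1)) := by
  have e : cov2 x y = y * (11*(x^5)^2 + 66*x^5*y^5 - (y^5)^2) := by simp only [cov2]; ring
  rw [e, hx, ← hy]; ring

theorem hH_split (G k u : R) : hH G k u = u ^ 20 + k * (G ^ 4 * k ^ 19
    - 228 * G ^ 3 * k ^ 14 * u ^ 5 + 494 * G ^ 2 * k ^ 9 * u ^ 10
    + 228 * G * k ^ 4 * u ^ 15) := by
  simp only [hH]; ring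

theorem qH_split (G k u : R) :
    qH G k u = -u ^ 10 + k * (G ^ 2 * k ^ 9 + 11 * G * k ^ 4 * u ^ 5) := by
  simp only [qH]; ring

theorem tH_split (P G k u : R) : -(P ^ 3 * tH G k u) - 3
    = -((P - 1) * (P ^ 2 + P + 1) * tH G k u)
      - k * (G ^ 6 * k ^ 29 + 522 * G ^ 5 * k ^ 24 * u ^ 5 - 10005 * G ^ 4 * k ^ 19 * u ^ 10
        - 10005 * G ^ 2 * k ^ 9 * u ^ 20 - 522 * G * k ^ 4 * u ^ 25) - (u ^ 30 - 1) - 4 := by
  simp only [tH]; ring

theorem hF_four (x y : R) : hF (4 * x) (4 * y) = 2 ^ 40 * hF x y := by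
  rw [hF_smul, show (4 : R) = 2 ^ 2 by norm_num, ← pow_mul]

theorem tF_four (x y : R) : tF (4 * x) (4 * y) = 2 ^ 60 * tF x y := by
  rw [tF_smul, show (4 : R) = 2 ^ 2 by norm_num, ← pow_mul]

end Forms

theorem invariants_mod_four (W : WeierstrassCurve ℤ) (h4 : ¬ (2 : ℤ) ∣ W.c₄) :
    Odd W.c₄ ∧ (4 : ℤ) ∣ W.c₄ - 1 ∧ (4 : ℤ) ∣ W.c₆ - 3 := by
  have hc4o : Odd W.c₄ := Int.not_even_iff_odd.1 fun he => h4 (even_iff_two_dvd.1 he)
  have hb2o : Odd W.b₂ := by
    rw [WeierstrassCurve.c₄, Int.odd_sub, Int.odd_pow' two_ne_zero] at hc4o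
    exact hc4o.2 ((by decide : Even (24 : ℤ)).mul_right _)
  obtain ⟨u, hu⟩ : ∃ u, W.a₁ = 2 * u + 1 := by
    have : Odd (W.a₁ ^ 2) := by
      rw [WeierstrassCurve.b₂, Int.odd_add] at hb2o
      exact hb2o.2 ((by decide : Even (4 : ℤ)).mul_right _)
    exact (Int.odd_pow' two_ne_zero).1 this
  have hb : W.b₂ = 1 + 4 * (u ^ 2 + u + W.a₂) := by
    simp only [WeierstrassCurve.b₂, hu]; ring
  set t := u ^ 2 + u + W.a₂
  refine ⟨hc4o, ⟨2 * t + 4 * t ^ 2 - 6 * W.b₄, ?_⟩,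
    ⟨-1 - 3 * t - 12 * t ^ 2 - 16 * t ^ 3 + 9 * W.b₂ * W.b₄ - 54 * W.b₆, ?_⟩⟩
  · simp only [WeierstrassCurve.c₄, hb]; ring
  · simp only [WeierstrassCurve.c₆, hb]; ring

/-- **The pencil at a root near a cusp.** For `G`, `P ≡ 1 (mod 4)` giving the invariants of `W`
and a parity `e₀` making the first coefficient of the pencil a unit: a fibre point and an
admissible direction such that, for every `m ≥ 4`, the parameters in one class modulo `2^(m+1)`
give invariants `(2⁴⁰ α, 2⁶⁰ β)` with `α` a unit, `β ≡ 3 (mod 4)` and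
`(α³ - β²)/1728 = 2^(5(m-2)) · G · unit`. -/
theorem exists_pencil_of_root {A : ValuationSubring Qbar} (hA : A.LiesOverPrime 2)
    (W : WeierstrassCurve ℤ) (hΔ : W.Δ ≠ 0) {G P : A} (hGa : Approx G) (hPa : Approx P)
    (hP4 : (4 : A) ∣ P - 1) (hqu : IsUnit (qG G)) (hHa : P ^ 2 * hG G = (W.c₄ : A))
    (hTb : -(P ^ 3 * tG G) = (W.c₆ : A)) {e₀ : ℤ}
    (he₀ : IsUnit (-(P * (G ^ 2 + 66 * G - 11)) + (e₀ : A))) :
    ∃ (v : Qbar × Qbar) (κ : ℤ), InFibre (W.c₄ : Qbar) (W.c₆ : Qbar) v ∧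
      dP (covP v + (κ : Qbar) • v) ≠ 0 ∧
      ∀ m : ℕ, 4 ≤ m → ∃ r : ℤ, ∀ μ : ℤ, (2 : ℤ) ^ (m + 1) ∣ μ - r →
        ∃ α β δ w : A, hP (pencil (μ : Qbar) (κ : Qbar) v) = 2 ^ 40 * (α : Qbar) ∧
          tP (pencil (μ : Qbar) (κ : Qbar) v) = 2 ^ 60 * (β : Qbar) ∧ IsUnit α ∧
          (4 : A) ∣ β - 3 ∧ α ^ 3 - β ^ 2 = 1728 * δ ∧ IsUnit w ∧
          δ = 2 ^ (5 * (m - 2)) * (G * w) := by
  have hPu : IsUnit P := by
    have := isUnit_add_of_two_dvd hA isUnit_one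
      ((show (2 : A) ∣ 4 from ⟨2, by norm_num⟩).trans hP4)
    rwa [add_sub_cancel] at this
  -- the fibre point
  obtain ⟨y, hy⟩ := IsAlgClosed.exists_pow_nat_eq (P : Qbar) (show 0 < 10 by norm_num)
  obtain ⟨z, hz⟩ := IsAlgClosed.exists_pow_nat_eq (G : Qbar) (show 0 < 5 by norm_num)
  set x : Qbar := z * y with hx
  have hxy : x ^ 5 = (G : Qbar) * y ^ 5 := by rw [hx, mul_pow, hz]
  have hv : InFibre (W.c₄ : Qbar) (W.c₆ : Qbar) (x, y) := by
    have e1 := hF_near (k := (1 : Qbar)) (u := (1 : Qbar)) hxy hy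
    have e2 := tF_near (k := (1 : Qbar)) (u := (1 : Qbar)) hxy hy
    rw [mul_one, mul_one] at e1 e2
    have c1 : hH (G : Qbar) 1 1 = ((hG G : A) : Qbar) := by
      rw [show hG G = hH G 1 1 by simp [hH, hG]]
      simpa using (map_hH A.subtype G 1 1).symm
    have c2 : tH (G : Qbar) 1 1 = ((tG G : A) : Qbar) := by
      rw [show tG G = tH G 1 1 by simp [tH, tG]]
      simpa using (map_tH A.subtype G 1 1).symm
    rw [c1] at e1
    rw [c2] at e2
    constructor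
    · change hF x y = _
      rw [e1, ← map_intCast A.subtype W.c₄]
      exact congrArg A.subtype hHa
    · change tF x y = _
      rw [e2, ← map_intCast A.subtype W.c₆]
      exact congrArg A.subtype hTb
  have hab : (W.c₄ : Qbar) ^ 3 ≠ (W.c₆ : Qbar) ^ 2 := by
    intro he
    apply hΔ
    have h0 : (1728 : ℤ) * W.Δ = 0 := by
      rw [W.c_relation, sub_eq_zero]; exact_mod_cast he
    simpa using h0
  obtain ⟨j, hκ⟩ : ∃ j : ℤ, dP (covP (x, y) + ((2 * j + e₀ : ℤ) : Qbar) • (x, y)) ≠ 0 := by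
    have hu := hv.dP_ne_zero hab
    have hne : dLine (covP (x, y)) (x, y) ≠ 0 := fun h => by
      have := natDegree_dLine (covP (x, y)) hu
      rw [h, Polynomial.natDegree_zero] at this
      omega
    obtain ⟨t, ⟨j, rfl⟩, ht⟩ := ((Set.infinite_range_of_injective
      (f := fun j : ℤ => ((2 * j + e₀ : ℤ) : Qbar))
      (fun i j h => by simpa using h)).sdiff (Polynomial.finite_setOfPred_isRoot hne)).nonempty
    exact ⟨j, fun h => ht (by rw [Set.mem_ofPred_eq, Polynomial.IsRoot, eval_dLine, h])⟩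
  set κ : ℤ := 2 * j + e₀ with hκe
  refine ⟨(x, y), κ, hv, hκ, fun m hm => ?_⟩
  set c₁ : A := -(P * (G ^ 2 + 66 * G - 11)) with hc₁
  set c₂ : A := P * (11 * G ^ 2 + 66 * G - 1) with hc₂
  have hcu : IsUnit (c₁ + (κ : A)) := by
    rw [show c₁ + (κ : A) = c₁ + (e₀ : A) + 2 * (j : A) by rw [hκe]; push_cast; ring]
    exact isUnit_add_of_two_dvd hA he₀ (dvd_mul_right _ _)
  have hca : Approx (c₁ + (κ : A)) :=
    ((hPa.mul (((hGa.pow 2).add ((approx_ofNat 66).mul hGa)).sub (approx_ofNat 11))).neg).add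
      (approx_intCast κ)
  obtain ⟨e, he⟩ := hcu.exists_right_inv
  obtain ⟨q₀, hq₀⟩ := (Approx.of_mul_eq_one hA hca he).neg (m + 1)
  refine ⟨q₀ + 2 ^ m, fun μ hμ => ?_⟩
  obtain ⟨s, hs⟩ := hμ
  obtain ⟨s', hs'⟩ := hq₀
  set w₁ : A := 1 + 2 * ((s : A) - s') with hw₁
  have hμe : (μ : A) + e = 2 ^ m * w₁ := by
    have := congrArg (Int.cast : ℤ → A) hs
    push_cast at this
    rw [hw₁]
    linear_combination this - hs'
  have hw₁u : IsUnit w₁ := isUnit_add_of_two_dvd hA isUnit_one (dvd_mul_right _ _)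
  set k : A := 2 ^ (m - 2) * (w₁ * (c₁ + κ)) with hk
  have hk4 : (4 : A) ∣ k := by
    rw [hk]
    exact (((by norm_num : (4 : A) ∣ 2 ^ 2)).trans (pow_dvd_pow _ (by omega))).mul_right _
  have hf1 : 1 + (μ : A) * (c₁ + κ) = 4 * k := by
    have h2m : (2 : A) ^ m = 4 * 2 ^ (m - 2) := by
      rw [show (4 : A) = 2 ^ 2 by norm_num, ← pow_add]; congr 1; omega
    rw [hk]
    linear_combination (c₁ + (κ : A)) * hμe - he + (c₁ + (κ : A)) * w₁ * h2m
  set u : A := k + 3 * (μ : A) * P * qG G with hu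
  have hf2 : 1 + (μ : A) * (c₂ + κ) = 4 * u := by
    rw [hu, qG]
    linear_combination hf1 + (μ : A) * hc₂ - (μ : A) * hc₁
  have hμu : IsUnit (μ : A) := by
    have e' : (μ : A) = -e + 2 ^ m * w₁ := by linear_combination hμe
    rw [e']
    exact isUnit_add_of_two_dvd hA (IsUnit.of_mul_eq_one (c₁ + κ) (by rw [mul_comm]; exact he)).neg
      ((dvd_pow_self _ (by omega)).mul_right _)
  have hku2 : (2 : A) ∣ k := (show (2 : A) ∣ 4 from ⟨2, by norm_num⟩).trans hk4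
  have h3 : IsUnit (3 : A) := by
    have := (isUnit_intCast_iff hA 3).2 (by decide)
    simpa using this
  have huu : IsUnit u := by
    rw [hu, add_comm]
    exact isUnit_add_of_two_dvd hA (((h3.mul hμu).mul hPu).mul hqu) hku2
  have hua : Approx u := by
    have hua' : Approx (4 * u) :=
      hf2 ▸ approx_one.add ((approx_intCast μ).mul
        ((hPa.mul ((((approx_ofNat 11).mul (hGa.pow 2)).add ((approx_ofNat 66).mul hGa)).sub
          approx_one)).add (approx_intCast κ)))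
    intro n
    obtain ⟨q, hq⟩ := hua' (n + 2)
    have hq4 : (4 : A) ∣ (q : A) := by
      have := (((by norm_num : (4 : A) ∣ 2 ^ 2)).trans
        ((pow_dvd_pow _ (by omega : 2 ≤ n + 2)).trans hq))
      simpa using (dvd_mul_right (4 : A) u).sub this
    obtain ⟨q', rfl⟩ : (4 : ℤ) ∣ q := by
      have := (two_pow_dvd_intCast_iff hA 2 q).1 (by rwa [show (2 : A) ^ 2 = 4 by norm_num])
      simpa using this
    refine ⟨q', (mul_dvd_mul_iff_left (show (4 : A) ≠ 0 by norm_num)).1 ?_⟩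
    rw [show (4 : A) * 2 ^ n = 2 ^ (n + 2) by ring]
    push_cast at hq
    rwa [mul_sub]
  -- the coordinates of the member
  have hw : pencil (μ : Qbar) (κ : Qbar) (x, y)
      = (4 * (x * (k : Qbar)), 4 * (y * (u : Qbar))) := by
    have g1 := congrArg A.subtype hf1
    have g2 := congrArg A.subtype hf2
    simp only [map_add, map_mul, map_one, map_intCast, map_ofNat,
      ValuationSubring.subtype_apply] at g1 g2
    simp only [pencil, covP, Prod.mk_add_mk, Prod.smul_mk, smul_eq_mul, Prod.mk.injEq,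
      cov1_near hxy hy, cov2_near hxy hy]
    have d1 : (c₁ : Qbar) = -((P : Qbar) * ((G : Qbar) ^ 2 + 66 * G - 11)) := by
      change A.subtype c₁ = _
      simp only [hc₁, map_neg, map_mul, map_add, map_sub, map_pow, map_ofNat]
      rfl
    have d2 : (c₂ : Qbar) = (P : Qbar) * (11 * (G : Qbar) ^ 2 + 66 * G - 1) := by
      change A.subtype c₂ = _
      simp only [hc₂, map_one, map_mul, map_add, map_sub, map_pow, map_ofNat]
      rfl
    rw [d1] at g1
    rw [d2] at g2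
    constructor
    · linear_combination x * g1
    · linear_combination y * g2
  clear_value c₁ c₂ k u w₁
  refine ⟨P ^ 2 * hH G k u, -(P ^ 3 * tH G k u),
    -(P ^ 6 * G * k ^ 5 * u ^ 5 * qH G k u ^ 5),
    -(P ^ 6 * (w₁ * (c₁ + κ)) ^ 5 * u ^ 5 * qH G k u ^ 5), ?_, ?_, ?_, ?_, ?_, ?_, ?_⟩
  · rw [← ValuationSubring.subtype_apply, hw, hP, hF_four, hF_near hxy hy, map_mul, map_pow, map_hH]
    simp only [ValuationSubring.subtype_apply]
  · rw [← ValuationSubring.subtype_apply, hw, tP, tF_four, tF_near hxy hy, map_neg, map_mul,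
      map_pow, map_tH]
    simp only [ValuationSubring.subtype_apply]
  · refine (hPu.pow 2).mul ?_
    rw [hH_split]
    exact isUnit_add_of_two_dvd hA (huu.pow 20) (hku2.mul_right _)
  · have hu30 : (4 : A) ∣ u ^ 30 - 1 := by
      refine (Approx.four_dvd_sq_sub_one hA hua huu).trans ?_
      have h := sub_one_dvd_pow_sub_one (u ^ 2) 15
      rwa [← pow_mul] at h
    rw [tH_split]
    exact (((((hP4.mul_right _).mul_right _).neg_right).sub (hk4.mul_right _)).sub hu30).sub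
      dvd_rfl
  · linear_combination P ^ 6 * hH_cube_sub_tH_sq G k u
  · refine (((hPu.pow 6).mul ((hw₁u.mul hcu).pow 5)).mul (huu.pow 5)).mul
      (IsUnit.pow 5 ?_) |>.neg
    rw [qH_split]
    exact isUnit_add_of_two_dvd hA (huu.pow 10).neg (hku2.mul_right _)
  · rw [show (2 : A) ^ (5 * (m - 2)) = (2 ^ (m - 2)) ^ 5 by rw [← pow_mul, mul_comm]]
    generalize qH G k u = q
    rw [hk]
    ring

/-- **The local data at 2.** A fibre point of the pencil and an admissible direction such that, for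
every `m ≥ 4`, the parameters in one class modulo `2^(m+1)` give invariants `(2⁴⁰ α, 2⁶⁰ β)` with
`α` a unit, `β ≡ 3 (mod 4)` and `(α³ - β²)/1728 = Δ 2^(5(m-2)) · unit`. -/
theorem exists_two_adic_pencil {A : ValuationSubring Qbar} (hA : A.LiesOverPrime 2)
    (W : WeierstrassCurve ℤ) (hΔ : W.Δ ≠ 0) (h2 : (2 : ℤ) ∣ W.Δ) (h4 : ¬ (2 : ℤ) ∣ W.c₄) :
    ∃ (v : Qbar × Qbar) (κ : ℤ), InFibre (W.c₄ : Qbar) (W.c₆ : Qbar) v ∧
      dP (covP v + (κ : Qbar) • v) ≠ 0 ∧
      ∀ m : ℕ, 4 ≤ m → ∃ r : ℤ, ∀ μ : ℤ, (2 : ℤ) ^ (m + 1) ∣ μ - r →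
        ∃ α β δ w : A, hP (pencil (μ : Qbar) (κ : Qbar) v) = 2 ^ 40 * (α : Qbar) ∧
          tP (pencil (μ : Qbar) (κ : Qbar) v) = 2 ^ 60 * (β : Qbar) ∧ IsUnit α ∧
          (4 : A) ∣ β - 3 ∧ α ^ 3 - β ^ 2 = 1728 * δ ∧ IsUnit w ∧
          δ = (W.Δ : A) * 2 ^ (5 * (m - 2)) * w := by
  obtain ⟨hao, ha4, hb4⟩ := invariants_mod_four W h4
  obtain ⟨G, hG2, hGa, hG0, wG, hwG, hGw⟩ := exists_cusp_root hA h2 hao
  set a : A := (W.c₄ : A)
  set b : A := (W.c₆ : A)
  have hau : IsUnit a := (isUnit_intCast_iff hA _).2 hao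
  have h1728 : 1728 * (W.Δ : A) = a ^ 3 - b ^ 2 := by
    have := congrArg (Int.cast : ℤ → A) W.c_relation
    push_cast at this; exact this
  have hrel := gEq_eq_zero_rel h1728 hG0
  have hh4 : (4 : A) ∣ hG G - 1 := by
    obtain ⟨g, hg⟩ := hG2
    exact ⟨4 * g ^ 4 - 456 * g ^ 3 + 494 * g ^ 2 + 114 * g, by rw [hG, hg]; ring⟩
  have ht4 : (4 : A) ∣ tG G - 1 := by
    obtain ⟨g, hg⟩ := hG2
    exact ⟨16 * g ^ 6 + 4176 * g ^ 5 - 40020 * g ^ 4 - 10005 * g ^ 2 - 261 * g, by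
      rw [tG, hg]; ring⟩
  have hu4 : ∀ z : A, (4 : A) ∣ z - 1 → IsUnit z := fun z hz => by
    have := isUnit_add_of_two_dvd hA isUnit_one
      ((show (2 : A) ∣ 4 from ⟨2, by norm_num⟩).trans hz)
    rwa [add_sub_cancel] at this
  have htu : IsUnit (tG G) := hu4 _ ht4
  have hha : Approx (hG G) := by
    rw [hG]
    exact ((((hGa.pow 4).sub ((approx_ofNat 228).mul (hGa.pow 3))).add
      ((approx_ofNat 494).mul (hGa.pow 2))).add ((approx_ofNat 228).mul hGa)).add approx_one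
  have hta : Approx (tG G) := by
    rw [tG]
    exact (((((hGa.pow 6).add ((approx_ofNat 522).mul (hGa.pow 5))).sub
      ((approx_ofNat 10005).mul (hGa.pow 4))).sub ((approx_ofNat 10005).mul (hGa.pow 2))).sub
      ((approx_ofNat 522).mul hGa)).add approx_one
  obtain ⟨n', hn'⟩ := (hau.mul htu).exists_right_inv
  set P : A := -(b * hG G) * n' with hPdef
  have hPa : Approx P :=
    (((approx_intCast _).mul hha).neg).mul
      (Approx.of_mul_eq_one hA ((approx_intCast _).mul hta) hn')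
  have hat : a * tG G * P = -(b * hG G) := by
    rw [hPdef]; linear_combination -(b * hG G) * hn'
  have hP4 : (4 : A) ∣ P - 1 := by
    have h1 : (4 : A) ∣ (P - 1) * (a * tG G) := by
      have e : (P - 1) * (a * tG G) = -((b - 3) * hG G) - 3 * (hG G - 1)
          - (a - 1) * tG G - (tG G - 1) - 4 := by linear_combination hat
      rw [e]
      have h3 : (4 : A) ∣ b - 3 := by simpa [b] using (Int.castRingHom A).map_dvd hb4
      have h1' : (4 : A) ∣ a - 1 := by simpa [a] using (Int.castRingHom A).map_dvd ha4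
      exact (((((h3.mul_right _).neg_right).sub (hh4.mul_left _)).sub (h1'.mul_right _)).sub
        ht4).sub dvd_rfl
    exact (hau.mul htu).dvd_mul_right.1 h1
  have hHa : P ^ 2 * hG G = a := by
    refine mul_right_cancel₀ (pow_ne_zero 2 (hau.mul htu).ne_zero) ?_
    linear_combination hG G * (a * tG G * P - b * hG G) * hat + hrel
  have hTb : -(P ^ 3 * tG G) = b := by
    refine mul_right_cancel₀ (hau.mul htu).ne_zero ?_
    linear_combination -(tG G) * P ^ 2 * hat + b * tG G * hHa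
  obtain ⟨v, κ, hv, hκ, hkey⟩ := exists_pencil_of_root hA W hΔ hGa hPa hP4 (isUnit_qG hA hG2)
    hHa hTb (e₀ := 0) (by
      rw [Int.cast_zero, add_zero,
        show G ^ 2 + 66 * G - 11 = 1 + (G * (G + 66) + 2 * -6) by ring]
      exact ((hu4 _ hP4).mul (isUnit_add_of_two_dvd hA isUnit_one
        ((hG2.mul_right _).add (dvd_mul_right _ _)))).neg)
  refine ⟨v, κ, hv, hκ, fun m hm => ?_⟩
  obtain ⟨r, hr⟩ := hkey m hm
  refine ⟨r, fun μ hμ => ?_⟩
  obtain ⟨α, β, δ, w, hα, hβ, hαu, hβ4, hrel, hwu, hδ⟩ := hr μ hμ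
  exact ⟨α, β, δ, wG * w, hα, hβ, hαu, hβ4, hrel, hwG.mul hwu, by rw [hδ, hGw]; ring⟩

end Fermat.Agent.SwitchFive
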