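import Mathlib
import Fermat.Agent.Root.Defs
import Fermat.Agent.SwitchFive.LocalTwo
import Fermat.Agent.Switch.Family
import Fermat.Agent.Switch.Congruence
import Fermat.Agent.Switch.ModThree
import Fermat.Agent.SwitchThree.Congr
import Fermat.Agent.SwitchThree.Model

/-!
# The switch at 5 with the valuation at 2 moved prime to 3

Along the pencil of `W`, in a 2-adic class near the cusp, the invariants are `(2⁴⁰ α, 2⁶⁰ β)`
where `(α, β)` comes from a curve multiplicative at 2 with discriminant of valuation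
`v₂(Δ) + 5(m-2)`.

Main results: `exists_switch_of_pencil`, from any such data at 2, and `exists_twoFlip`, for `W`
multiplicative at 2.
-/

set_option autoImplicit false

open Polynomial

namespace Fermat.Agent.SwitchFive

open Fermat.Agent.Switch

local notation "Qbar" => AlgebraicClosure ℚ

theorem exists_two_pow_mul_odd (z : ℤ) (hz : z ≠ 0) : ∃ i : ℕ, ∃ o : ℤ, Odd o ∧ z = 2 ^ i * o := by
  obtain ⟨i, n, hn, hzn⟩ := Nat.exists_eq_two_pow_mul_odd (Int.natAbs_ne_zero.2 hz)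
  rcases z.natAbs_eq with h | h <;> rw [hzn] at h <;> push_cast at h
  · exact ⟨i, n, by exact_mod_cast hn, h⟩
  · exact ⟨i, -n, (by exact_mod_cast hn : Odd (n : ℤ)).neg, by rw [h]; ring⟩

theorem isCoprime_two_pow (k : ℕ) {o : ℤ} (ho : Odd o) : IsCoprime ((2 : ℤ) ^ k) o := by
  refine IsCoprime.pow_left ?_
  obtain ⟨t, rfl⟩ := ho
  exact ⟨-t, 1, by ring⟩

theorem padicValInt_two_pow_mul_odd (k : ℕ) {o : ℤ} (ho : Odd o) :
    padicValInt 2 (2 ^ k * o) = k := by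
  have ho' : ¬ (2 : ℤ) ∣ o := fun h => Int.not_odd_iff_even.2 (even_iff_two_dvd.2 h) ho
  have h0 : o ≠ 0 := fun h => ho' (h ▸ dvd_zero _)
  rw [padicValInt.mul (pow_ne_zero _ two_ne_zero) h0,
    padicValInt.eq_zero_of_not_dvd (z := o) (by exact_mod_cast ho'), add_zero, padicValInt,
    Int.natAbs_pow]
  exact padicValNat.prime_pow k

/-- A rational value that is `2^j` times an element of `A`, from a parameter clearing the odd part
of the denominator. -/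
theorem exists_int_value {A : ValuationSubring Qbar} (hA : A.LiesOverPrime 2) (R : ℚ[X]) {a : ℤ}
    (ha : R.coeff 0 = (a : ℚ)) {e o : ℤ} {i : ℕ} (heo : e = 2 ^ i * o) (he0 : e ≠ 0)
    (he : ∀ x : ℤ, ∃ n : ℤ, (e : ℚ) * R.divX.eval (x : ℚ) = n) {N : ℤ} (hN : Odd N) (j : ℕ)
    {μ : ℤ} (hμ : N * o ∣ μ) {α : A}
    (hα : ((R.eval (μ : ℚ) : ℚ) : Qbar) = 2 ^ j * (α : Qbar)) :
    ∃ c : ℤ, R.eval (μ : ℚ) = 2 ^ j * (c : ℚ) ∧ (c : A) = α ∧ N ∣ 2 ^ j * c - a := by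
  obtain ⟨n, hn⟩ := he μ
  obtain ⟨q, rfl⟩ := hμ
  have hev : (2 : ℚ) ^ i * R.eval ((N * o * q : ℤ) : ℚ) = ((2 ^ i * a + N * q * n : ℤ) : ℚ) := by
    conv_lhs => rw [← X_mul_divX_add R]
    subst heo
    simp only [eval_add, eval_mul, eval_X, eval_C, ha] at hn ⊢
    push_cast at hn ⊢
    linear_combination (N : ℚ) * q * hn
  set Z : ℤ := 2 ^ i * a + N * q * n with hZ
  have hZA : (Z : A) = 2 ^ (i + j) * α := by
    apply Subtype.ext
    change A.subtype (Z : A) = A.subtype (2 ^ (i + j) * α)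
    rw [map_intCast, map_mul, map_pow, map_ofNat, ← Rat.cast_intCast Z, ← hev, Rat.cast_mul,
      hα, pow_add]
    simp [mul_assoc]
  obtain ⟨c, hc⟩ : (2 : ℤ) ^ (i + j) ∣ Z :=
    (two_pow_dvd_intCast_iff hA _ _).1 ⟨α, hZA⟩
  refine ⟨c, ?_, ?_, ?_⟩
  · refine mul_left_cancel₀ (pow_ne_zero i (two_ne_zero (α := ℚ))) ?_
    rw [hev, hc]; push_cast; ring
  · rw [hc] at hZA
    push_cast at hZA
    exact mul_left_cancel₀ (pow_ne_zero _ two_ne_zero) hZA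
  · refine (isCoprime_two_pow i hN).symm.dvd_of_dvd_mul_left ⟨q * n, ?_⟩
    rw [hc, pow_add] at hZ
    linear_combination hZ

/-- The integral equation with invariants scaled by `2⁴⁰`, `2⁶⁰`. -/
def scaled (W : WeierstrassCurve ℤ) : WeierstrassCurve ℤ :=
  ⟨2 ^ 10 * W.a₁, 2 ^ 20 * W.a₂, 2 ^ 30 * W.a₃, 2 ^ 40 * W.a₄, 2 ^ 60 * W.a₆⟩

theorem scaled_c₄ (W : WeierstrassCurve ℤ) : (scaled W).c₄ = 2 ^ 40 * W.c₄ := by
  simp only [scaled, WeierstrassCurve.c₄, WeierstrassCurve.b₂, WeierstrassCurve.b₄]; ring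

theorem scaled_c₆ (W : WeierstrassCurve ℤ) : (scaled W).c₆ = 2 ^ 60 * W.c₆ := by
  simp only [scaled, WeierstrassCurve.c₆, WeierstrassCurve.b₂, WeierstrassCurve.b₄,
    WeierstrassCurve.b₆]
  ring

theorem scaled_Δ (W : WeierstrassCurve ℤ) : (scaled W).Δ = 2 ^ 120 * W.Δ := by
  simp only [scaled, WeierstrassCurve.Δ, WeierstrassCurve.b₂, WeierstrassCurve.b₄,
    WeierstrassCurve.b₆, WeierstrassCurve.b₈]
  ring

theorem scaled_isModel (W : WeierstrassCurve ℤ) :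
    (⟨Units.mk0 ((2 : ℚ) ^ 10)⁻¹ (by norm_num), 0, 0, 0⟩ : WeierstrassCurve.VariableChange ℚ) •
      W.map (Int.castRingHom ℚ) = (scaled W).map (Int.castRingHom ℚ) := by
  ext <;>
    simp only [scaled, WeierstrassCurve.variableChange_a₁, WeierstrassCurve.variableChange_a₂,
      WeierstrassCurve.variableChange_a₃, WeierstrassCurve.variableChange_a₄,
      WeierstrassCurve.variableChange_a₆, WeierstrassCurve.map_a₁, WeierstrassCurve.map_a₂,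
      WeierstrassCurve.map_a₃, WeierstrassCurve.map_a₄, WeierstrassCurve.map_a₆,
      Units.val_inv_eq_inv_val, Units.val_mk0, inv_inv, eq_intCast] <;>
    push_cast <;> ring

theorem not_dvd_two {ℓ : ℕ} (hℓ : ℓ.Prime) (h2 : ℓ ≠ 2) (k : ℕ) : ¬ (ℓ : ℤ) ∣ 2 ^ k := fun h =>
  h2 ((Nat.prime_dvd_prime_iff_eq hℓ Nat.prime_two).1
    (hℓ.dvd_of_dvd_pow (n := k) (by exact_mod_cast h)))

/-- **The switch at 5 from local data at 2.** If, on a class of parameters of the pencil of `W`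
modulo `2^(m+1)`, the invariants are `(2⁴⁰ α, 2⁶⁰ β)` with `(α³ - β²)/1728 = 2^(n+5(m-2)) · unit`,
where `v₂(Δ) = n`, then some member is semistable, congruent to `W` mod 5, multiplicative at 2
with `v₂(Δ') = n + 5(m-2)`, of the same type at 3 and 5, and has irreducible 3-torsion. -/
theorem exists_switch_of_pencil (W : WeierstrassCurve ℤ) (hΔ : W.Δ ≠ 0)
    (hss : W.IsSemistableModel) {A : ValuationSubring Qbar} (hA : A.LiesOverPrime 2) {n : ℕ}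
    {D₀ : ℤ} (hD₀ : Odd D₀) (hΔD : W.Δ = 2 ^ n * D₀) {m : ℕ}
    (hm3 : ¬ 3 ∣ n + 5 * (m - 2)) {v : Qbar × Qbar} {κ : ℤ}
    (hv : InFibre (W.c₄ : Qbar) (W.c₆ : Qbar) v) (hκ : dP (covP v + (κ : Qbar) • v) ≠ 0) {r : ℤ}
    (hr : ∀ μ : ℤ, (2 : ℤ) ^ (m + 1) ∣ μ - r →
      ∃ α β δ w : A, hP (pencil (μ : Qbar) (κ : Qbar) v) = 2 ^ 40 * (α : Qbar) ∧
        tP (pencil (μ : Qbar) (κ : Qbar) v) = 2 ^ 60 * (β : Qbar) ∧ IsUnit α ∧
        (4 : A) ∣ β - 3 ∧ α ^ 3 - β ^ 2 = 1728 * δ ∧ IsUnit w ∧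
        δ = 2 ^ (n + 5 * (m - 2)) * w) :
    ∃ W' : WeierstrassCurve ℤ, W'.Δ ≠ 0 ∧ W'.IsSemistableModel ∧ (2 : ℤ) ∣ W'.Δ ∧
      ¬ 3 ∣ padicValInt 2 W'.Δ ∧ W'.ModRepIsIrreducible 3 ∧ Root.CongrMod 5 W W' ∧
      ((5 : ℤ) ∣ W.Δ ↔ (5 : ℤ) ∣ W'.Δ) ∧ ((3 : ℤ) ∣ W.Δ ↔ (3 : ℤ) ∣ W'.Δ) ∧
      ((3 : ℤ) ∣ W.c₄ ↔ (3 : ℤ) ∣ W'.c₄) := by
  obtain ⟨t, c, h⟩ := exists_R5 (k := Qbar)
  have hab : (W.c₄ : Qbar) ^ 3 ≠ (W.c₆ : Qbar) ^ 2 := by
    intro he
    apply hΔ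
    have h0 : (1728 : ℤ) * W.Δ = 0 := by
      rw [W.c_relation, sub_eq_zero]; exact_mod_cast he
    simpa using h0
  set d := covP v + (κ : Qbar) • v with hd
  obtain ⟨⟨R4, hR4⟩, ⟨R6, hR6⟩⟩ := exists_rat_lines (a := (W.c₄ : ℚ)) (b := (W.c₆ : ℚ)) h
    (by simpa using hab) (v := v) (by simpa using hv) κ
  have z4 : R4.coeff 0 = (W.c₄ : ℚ) := by
    apply (algebraMap ℚ Qbar).injective
    rw [← coeff_map, hR4, coeff_zero_eq_eval_zero, eval_hLine, zero_smul, add_zero, hv.1,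
      map_intCast]
  have z6 : R6.coeff 0 = (W.c₆ : ℚ) := by
    apply (algebraMap ℚ Qbar).injective
    rw [← coeff_map, hR6, coeff_zero_eq_eval_zero, eval_tLine, zero_smul, add_zero, hv.2,
      map_intCast]
  have ev4 : ∀ q : ℚ, ((R4.eval q : ℚ) : Qbar) = hP (v + (q : Qbar) • d) := fun q => by
    rw [← eval_hLine, ← hR4, ← eq_ratCast (algebraMap ℚ Qbar) (R4.eval q),
      ← eq_ratCast (algebraMap ℚ Qbar) q, eval_map_apply]
  have ev6 : ∀ q : ℚ, ((R6.eval q : ℚ) : Qbar) = tP (v + (q : Qbar) • d) := fun q => by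
    rw [← eval_tLine, ← hR6, ← eq_ratCast (algebraMap ℚ Qbar) (R6.eval q),
      ← eq_ratCast (algebraMap ℚ Qbar) q, eval_map_apply]
  obtain ⟨e4, he4, hv4⟩ := exists_integer_values R4.divX
  obtain ⟨e6, he6, hv6⟩ := exists_integer_values R6.divX
  obtain ⟨i4, o4, ho4, he4o⟩ := exists_two_pow_mul_odd e4 he4
  obtain ⟨i6, o6, ho6, he6o⟩ := exists_two_pow_mul_odd e6 he6
  set N : ℤ := 729 * (5 * D₀) with hN
  have hNo : Odd N := (by decide : Odd (729 : ℤ)).mul ((by decide : Odd (5 : ℤ)).mul hD₀)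
  set L : ℤ := N * (o4 * o6) with hL
  have hLo : Odd L := hNo.mul (ho4.mul ho6)
  obtain ⟨x, y, hxy⟩ := isCoprime_two_pow (m + 1) hLo
  set μ₀ : ℤ := r * (y * L) with hμ₀
  set M : ℤ := 2 ^ (m + 1) * L with hM
  -- the invariants at each parameter
  have key : ∀ s : ℕ, ∃ W₁ : WeierstrassCurve ℤ,
      R4.eval ((μ₀ + M * s : ℤ) : ℚ) = ((scaled W₁).c₄ : ℚ) ∧
      R6.eval ((μ₀ + M * s : ℤ) : ℚ) = ((scaled W₁).c₆ : ℚ) ∧
      Odd W₁.c₄ ∧ (∃ z : ℤ, Odd z ∧ W₁.Δ = 2 ^ (n + 5 * (m - 2)) * z) ∧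
      N ∣ 2 ^ 40 * W₁.c₄ - W.c₄ ∧ N ∣ 2 ^ 60 * W₁.c₆ - W.c₆ := by
    intro s
    have hμr : (2 : ℤ) ^ (m + 1) ∣ μ₀ + M * s - r :=
      ⟨-(r * x) + L * s, by rw [hμ₀, hM]; linear_combination r * hxy⟩
    have hLμ : L ∣ μ₀ + M * s := ⟨r * y + 2 ^ (m + 1) * s, by rw [hμ₀, hM]; ring⟩
    obtain ⟨α, β, δ, w, hα, hβ, hαu, hβ4, hrel, hwu, hδ⟩ := hr _ hμr
    have hα' : ((R4.eval ((μ₀ + M * s : ℤ) : ℚ) : ℚ) : Qbar) = 2 ^ 40 * (α : Qbar) := by
      rw [ev4, Rat.cast_intCast]; exact hα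
    have hβ' : ((R6.eval ((μ₀ + M * s : ℤ) : ℚ) : ℚ) : Qbar) = 2 ^ 60 * (β : Qbar) := by
      rw [ev6, Rat.cast_intCast]; exact hβ
    obtain ⟨p, hp, hpα, hpN⟩ := exists_int_value hA R4 z4 he4o he4 hv4 hNo 40
      (dvd_trans ⟨o6, by rw [hL]; ring⟩ hLμ) hα'
    obtain ⟨q, hq, hqβ, hqN⟩ := exists_int_value hA R6 z6 he6o he6 hv6 hNo 60
      (dvd_trans ⟨o4, by rw [hL]; ring⟩ hLμ) hβ'
    have hpo : Odd p := (isUnit_intCast_iff hA p).1 (by rw [hpα]; exact hαu)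
    have hq4 : (4 : ℤ) ∣ q - 3 := by
      refine (show (4 : ℤ) = 2 ^ 2 by norm_num) ▸ (two_pow_dvd_intCast_iff hA 2 (q - 3)).1 ?_
      rw [show (2 : A) ^ 2 = 4 by norm_num, Int.cast_sub, hqβ]
      exact_mod_cast hβ4
    have h27p : (27 : ℤ) ∣ 2 ^ 40 * p - W.c₄ := (Dvd.intro (27 * (5 * D₀))
      (by rw [hN]; ring)).trans hpN
    have h27q : (27 : ℤ) ∣ 2 ^ 60 * q - W.c₆ := (Dvd.intro (27 * (5 * D₀))
      (by rw [hN]; ring)).trans hqN
    have hrelZ : ((p ^ 3 - q ^ 2 : ℤ) : A) = 1728 * δ := by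
      push_cast; rw [hpα, hqβ, hrel]
    have h1728 : (1728 : ℤ) ∣ p ^ 3 - q ^ 2 := by
      rw [show (1728 : ℤ) = 2 ^ 6 * 27 by norm_num]
      refine IsCoprime.mul_dvd (isCoprime_two_pow 6 (by decide : Odd (27 : ℤ))) ?_ ?_
      · refine (two_pow_dvd_intCast_iff hA 6 _).1 ⟨27 * δ, ?_⟩
        rw [hrelZ]; ring
      · refine (isCoprime_two_pow 120 (by decide : Odd (27 : ℤ))).symm.dvd_of_dvd_mul_left ?_
        have e : 2 ^ 120 * (p ^ 3 - q ^ 2) = ((2 ^ 40 * p) ^ 3 - W.c₄ ^ 3)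
            - ((2 ^ 60 * q) ^ 2 - W.c₆ ^ 2) + 27 * (64 * W.Δ) := by
          linear_combination -W.c_relation
        rw [e]
        exact (((h27p.trans (sub_dvd_pow_sub_pow _ _ 3)).sub
          (h27q.trans (sub_dvd_pow_sub_pow _ _ 2)))).add (dvd_mul_right _ _)
    obtain ⟨p', hp'⟩ : (27 : ℤ) ∣ p - 49 * W.c₄ := by
      have e : p - 49 * W.c₄ = 49 * (2 ^ 40 * p - W.c₄) - (49 * 2 ^ 40 - 1) * p := by ring
      rw [e]
      exact (h27p.mul_left _).sub (Dvd.dvd.mul_right (by norm_num) _)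
    obtain ⟨q', hq'⟩ : (27 : ℤ) ∣ q - 343 * W.c₆ := by
      have e : q - 343 * W.c₆ = 343 * (2 ^ 60 * q - W.c₆) - (343 * 2 ^ 60 - 1) * q := by ring
      rw [e]
      exact (h27q.mul_left _).sub (Dvd.dvd.mul_right (by norm_num) _)
    obtain ⟨W₁, hW4, hW6⟩ : ∃ W₁ : WeierstrassCurve ℤ, W₁.c₄ = p ∧ W₁.c₆ = q := by
      refine SwitchThree.exists_model_of_residue (β := 7 * W.b₂) hpo hq4 h1728
        ⟨49 * 8 * W.b₄ - 9 * p', ?_⟩ ⟨343 * 16 * W.b₆ - 21 * W.b₂ * p' - 2 * q', ?_⟩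
      · rw [eq_add_of_sub_eq hp']; simp only [WeierstrassCurve.c₄]; ring
      · rw [eq_add_of_sub_eq hp', eq_add_of_sub_eq hq']
        simp only [WeierstrassCurve.c₄, WeierstrassCurve.c₆]; ring
    refine ⟨W₁, ?_, ?_, hW4 ▸ hpo, ?_, hW4 ▸ hpN, hW6 ▸ hqN⟩
    · rw [scaled_c₄, hW4, hp]; push_cast; rfl
    · rw [scaled_c₆, hW6, hq]; push_cast; rfl
    · have hδA : (W₁.Δ : A) = δ := by
        refine mul_left_cancel₀ (show (1728 : A) ≠ 0 by norm_num) ?_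
        rw [← hrelZ, ← hW4, ← hW6, ← W₁.c_relation]; push_cast; rfl
      have hfact : (W₁.Δ : A) = 2 ^ (n + 5 * (m - 2)) * w := by rw [hδA, hδ]
      obtain ⟨z, hz⟩ := (two_pow_dvd_intCast_iff hA _ _).1 ⟨_, hfact⟩
      refine ⟨z, (isUnit_intCast_iff hA z).1 ?_, hz⟩
      rw [hz] at hfact
      push_cast at hfact
      rwa [mul_left_cancel₀ (pow_ne_zero _ two_ne_zero) hfact]
  choose W' hc4 hc6 hodd hval hN4 hN6 using key
  have hne : ∀ s, (W' s).Δ ≠ 0 := fun s => by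
    obtain ⟨z, hz, he⟩ := hval s
    rw [he]
    exact mul_ne_zero (pow_ne_zero _ two_ne_zero) fun h0 => by simp [h0] at hz
  -- congruences of discriminants
  have hX : ∀ s, 27 * (5 * D₀) ∣ 2 ^ 120 * (W' s).Δ - W.Δ := by
    intro s
    obtain ⟨u₁, hu₁⟩ := hN4 s
    obtain ⟨u₂, hu₂⟩ := hN6 s
    have h4' : IsCoprime (27 * (5 * D₀)) (2 ^ 6 : ℤ) :=
      (isCoprime_two_pow 6 ((by decide : Odd (27 : ℤ)).mul
        ((by decide : Odd (5 : ℤ)).mul hD₀))).symm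
    refine h4'.dvd_of_dvd_mul_left ⟨u₁ * ((2 ^ 40 * (W' s).c₄) ^ 2
      + 2 ^ 40 * (W' s).c₄ * W.c₄ + W.c₄ ^ 2) - u₂ * (2 ^ 60 * (W' s).c₆ + W.c₆), ?_⟩
    refine mul_left_cancel₀ (show (27 : ℤ) ≠ 0 by norm_num) ?_
    rw [hN] at hu₁ hu₂
    linear_combination (2 : ℤ) ^ 120 * (W' s).c_relation - W.c_relation
      + ((2 ^ 40 * (W' s).c₄) ^ 2 + 2 ^ 40 * (W' s).c₄ * W.c₄ + W.c₄ ^ 2) * hu₁
      - (2 ^ 60 * (W' s).c₆ + W.c₆) * hu₂
  have hiff : ∀ s (ℓ : ℕ), ℓ.Prime → ℓ ≠ 2 → (ℓ : ℤ) ∣ 27 * (5 * D₀) →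
      ((ℓ : ℤ) ∣ W.Δ ↔ (ℓ : ℤ) ∣ (W' s).Δ) := by
    intro s ℓ hℓ hℓ2 hd'
    have h1 := hd'.trans (hX s)
    constructor
    · intro hl
      refine ((Nat.prime_iff_prime_int.1 hℓ).dvd_or_dvd (a := (2 : ℤ) ^ 120) ?_).resolve_left
        (not_dvd_two hℓ hℓ2 _)
      have := h1.add hl
      rwa [sub_add_cancel] at this
    · intro hl
      have := (hl.mul_left (2 ^ 120)).sub h1
      rwa [sub_sub_cancel] at this
  have hpenc : ∀ s : ℕ,
      ((scaled (W' s)).c₄ : Qbar) = hP (pencil ((μ₀ + M * s : ℤ) : Qbar) (κ : Qbar) v) ∧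
      ((scaled (W' s)).c₆ : Qbar) = tP (pencil ((μ₀ + M * s : ℤ) : Qbar) (κ : Qbar) v) := by
    intro s
    constructor
    · rw [← Rat.cast_intCast (scaled (W' s)).c₄, ← hc4, ev4, Rat.cast_intCast]; rfl
    · rw [← Rat.cast_intCast (scaled (W' s)).c₆, ← hc6, ev6, Rat.cast_intCast]; rfl
  have hN' : ∀ {ℓ : ℕ}, ℓ.Prime → (ℓ : ℤ) ∣ N → (ℓ : ℤ) ∣ 27 * (5 * D₀) := by
    intro ℓ hℓ hl
    rw [hN] at hl
    rcases (Nat.prime_iff_prime_int.1 hℓ).dvd_or_dvd hl with hl | hl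
    · have h3 : (ℓ : ℤ) ∣ 3 :=
        (Nat.prime_iff_prime_int.1 hℓ).dvd_of_dvd_pow (n := 6) (by norm_num; exact hl)
      exact h3.trans ((by norm_num : (3 : ℤ) ∣ 27).mul_right _)
    · exact hl.mul_left _
  have hss' : ∀ s, (W' s).IsSemistableModel := by
    intro s ℓ hℓ hd' hc
    rcases eq_or_ne ℓ 2 with rfl | hℓ2
    · exact Int.not_odd_iff_even.2 (even_iff_two_dvd.2 (by exact_mod_cast hc)) (hodd s)
    by_cases hlN : (ℓ : ℤ) ∣ N
    · refine hss ℓ hℓ ((hiff s ℓ hℓ hℓ2 (hN' hℓ hlN)).2 hd') ?_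
      have := (hc.mul_left (2 ^ 40)).sub (hlN.trans (hN4 s))
      rwa [sub_sub_cancel] at this
    · have hp := Nat.prime_iff_prime_int.1 hℓ
      have h30 : ¬ (ℓ : ℤ) ∣ 30 := by
        intro h30
        rw [show (30 : ℤ) = 2 * 3 * 5 by norm_num] at h30
        rcases hp.dvd_or_dvd h30 with h30 | h30
        · rcases hp.dvd_or_dvd h30 with h30 | h30
          · exact not_dvd_two hℓ hℓ2 1 (by simpa using h30)
          · exact hlN (h30.trans ((by norm_num : (3 : ℤ) ∣ 729).mul_right _))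
        · exact hlN (h30.trans ((dvd_mul_right _ _).mul_left _))
      have hlΔ : ¬ (ℓ : ℤ) ∣ W.Δ := by
        intro hl
        rw [hΔD] at hl
        rcases hp.dvd_or_dvd hl with hl | hl
        · exact not_dvd_two hℓ hℓ2 _ hl
        · exact hlN ((hl.mul_left _).mul_left _)
      exact semistableAt_of_pencil hv (hpenc s).1 (hpenc s).2 hℓ h30 hlΔ
        (by rw [scaled_Δ]; exact hd'.mul_left _) (by rw [scaled_c₄]; exact hc.mul_left _)
  -- a member with irreducible mod 3 representation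
  have hM0 : (M : Qbar) ≠ 0 := by
    rw [Int.cast_ne_zero, hM]
    exact mul_ne_zero (pow_ne_zero _ two_ne_zero) fun h0 => by simp [h0] at hLo
  obtain ⟨s, -, hirr⟩ := exists_irreducible_three
    (v := v + (μ₀ : Qbar) • d) (d := (M : Qbar) • d)
    (CP := R4.comp (C (μ₀ : ℚ) + C (M : ℚ) * X)) (TP := R6.comp (C (μ₀ : ℚ) + C (M : ℚ) * X))
    (by
      have hdet := det_pencil v (κ : Qbar)
      rw [← hd] at hdet
      rw [show (v + (μ₀ : Qbar) • d).1 * ((M : Qbar) • d).2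
          - (v + (μ₀ : Qbar) • d).2 * ((M : Qbar) • d).1
          = (M : Qbar) * (v.1 * d.2 - v.2 * d.1) by
        simp only [Prod.fst_add, Prod.snd_add, Prod.smul_fst, Prod.smul_snd, smul_eq_mul]; ring,
        hdet]
      exact mul_ne_zero hM0 (mul_ne_zero (by norm_num) (hv.dP_ne_zero hab)))
    (by
      simp only [dP, Prod.smul_fst, Prod.smul_snd, smul_eq_mul, dF_smul]
      exact mul_ne_zero (pow_ne_zero _ hM0) hκ)
    (by
      refine Polynomial.funext fun x => ?_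
      rw [map_comp, hR4, eval_comp, eval_hLine, eval_hLine]
      simp only [eval_add, eval_mul, eval_X, map_X, Polynomial.map_add,
        Polynomial.map_mul, map_intCast, Polynomial.map_intCast, eval_intCast, hd]
      congr 1
      module)
    (by
      refine Polynomial.funext fun x => ?_
      rw [map_comp, hR6, eval_comp, eval_tLine, eval_tLine]
      simp only [eval_add, eval_mul, eval_X, map_X, Polynomial.map_add,
        Polynomial.map_mul, map_intCast, Polynomial.map_intCast, eval_intCast, hd]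
      congr 1
      module)
    (fun s => scaled (W' s))
    (fun s => by rw [← hc4, eval_comp]; simp)
    (fun s => by rw [← hc6, eval_comp]; simp)
  obtain ⟨z, hz, hΔ'⟩ := hval s
  refine ⟨W' s, hne s, hss' s, ?_, ?_,
    (SwitchThree.congr3_of_variableChange _ (scaled_isModel (W' s))).modRepIsIrreducible hirr,
    ?_, ?_, ?_, ?_⟩
  · rw [hΔ']
    exact (dvd_pow_self _ (by omega)).mul_right _
  · rwa [hΔ', padicValInt_two_pow_mul_odd _ hz]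
  · intro ℓ hℓ hg hg' h5
    have hℓ2 : ℓ ≠ 2 := fun h => hg' (by
      subst h; rw [hΔ']; exact (dvd_pow_self _ (by omega)).mul_right _)
    have : Fact (Nat.Prime 5) := ⟨by norm_num⟩
    have hgV : (scaled (W' s)).IsGoodPrimeFor ℓ := fun hl => by
      rw [scaled_Δ] at hl
      exact ((Nat.prime_iff_prime_int.1 hℓ).dvd_or_dvd hl).elim (not_dvd_two hℓ hℓ2 _) hg'
    have := EC.Frobenius.isElliptic_map_rat (hne s)
    obtain ⟨B, hB⟩ := Fermat.Agent.Gal.exists_liesOverPrime (L := Qbar) hℓ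
    obtain ⟨σ, hσ⟩ := Fermat.Agent.Gal.exists_isFrobeniusAt hℓ hB
    have t1 := EC.Frobenius.galoisTrace_eq_apOfModel (ℓ := 5)
      (EC.Frobenius.isIntegralModelOf_map (W' s)) hℓ hg' (Ne.symm h5) hB hσ
    have t2 := EC.Frobenius.galoisTrace_eq_apOfModel (ℓ := 5)
      (show (scaled (W' s)).IsIntegralModelOf ((W' s).map (Int.castRingHom ℚ)) from
        ⟨_, scaled_isModel (W' s)⟩) hℓ hgV (Ne.symm h5) hB hσ
    have hVne : (scaled (W' s)).Δ ≠ 0 := by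
      rw [scaled_Δ]; exact mul_ne_zero (pow_ne_zero _ two_ne_zero) (hne s)
    have hd5 := Switch.dvd_apOfModel_sub hΔ hVne h hv (μ := ((μ₀ + M * s : ℤ) : ℚ)) (κ := κ)
      (by rw [Rat.cast_intCast]; exact (hpenc s).1) (by rw [Rat.cast_intCast]; exact (hpenc s).2)
      hℓ hg hgV h5
    rw [← ZMod.intCast_zmod_eq_zero_iff_dvd, Int.cast_sub, ← t1]
    rw [show (5 : ℤ) = ((5 : ℕ) : ℤ) from rfl, ← ZMod.intCast_zmod_eq_zero_iff_dvd, Int.cast_sub,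
      ← t2] at hd5
    exact hd5
  · exact_mod_cast hiff s 5 (by norm_num) (by norm_num)
      (by exact_mod_cast (dvd_mul_right 5 D₀).mul_left 27)
  · exact_mod_cast hiff s 3 (by norm_num) (by norm_num)
      (by exact_mod_cast ((by norm_num : (3 : ℤ) ∣ 27).mul_right _))
  · have h3N : (3 : ℤ) ∣ N := hN ▸ (by norm_num : (3 : ℤ) ∣ 729).mul_right _
    have h := h3N.trans (hN4 s)
    constructor
    · intro h3
      have := h.add h3
      rw [sub_add_cancel] at this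
      exact (IsCoprime.pow_right (n := 40)
        (by norm_num : IsCoprime (3 : ℤ) 2)).dvd_of_dvd_mul_left this
    · intro h3
      have := (h3.mul_left (2 ^ 40)).sub h
      rwa [sub_sub_cancel] at this

/-- **The switch at 5** moving the valuation of the discriminant at 2 prime to 3. -/
theorem exists_twoFlip (W : WeierstrassCurve ℤ) (hΔ : W.Δ ≠ 0) (hss : W.IsSemistableModel)
    (h2 : (2 : ℤ) ∣ W.Δ) :
    ∃ W' : WeierstrassCurve ℤ, W'.Δ ≠ 0 ∧ W'.IsSemistableModel ∧ (2 : ℤ) ∣ W'.Δ ∧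
      ¬ 3 ∣ padicValInt 2 W'.Δ ∧ W'.ModRepIsIrreducible 3 ∧ Root.CongrMod 5 W W' ∧
      ((5 : ℤ) ∣ W.Δ ↔ (5 : ℤ) ∣ W'.Δ) ∧ ((3 : ℤ) ∣ W.Δ ↔ (3 : ℤ) ∣ W'.Δ) := by
  have h4 : ¬ (2 : ℤ) ∣ W.c₄ := by exact_mod_cast hss 2 Nat.prime_two (by exact_mod_cast h2)
  obtain ⟨n, D₀, hD₀, hΔD⟩ := exists_two_pow_mul_odd W.Δ hΔ
  obtain ⟨m, hm, hm3⟩ : ∃ m : ℕ, 4 ≤ m ∧ ¬ 3 ∣ n + 5 * (m - 2) := by
    by_cases h : 3 ∣ n + 5 * (4 - 2)
    · exact ⟨5, by norm_num, by omega⟩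
    · exact ⟨4, le_rfl, h⟩
  obtain ⟨A, hA⟩ := Fermat.Agent.Gal.exists_liesOverPrime (L := Qbar) Nat.prime_two
  obtain ⟨v, κ, hv, hκ, hkey⟩ := exists_two_adic_pencil hA W hΔ h2 h4
  obtain ⟨r, hr⟩ := hkey m hm
  obtain ⟨W', hne, hss', h2', hv2, hirr, hC, h5, h3, -⟩ :=
    exists_switch_of_pencil W hΔ hss hA hD₀ hΔD hm3 hv hκ (r := r) fun μ hμ => by
      obtain ⟨α, β, δ, w, hα, hβ, hαu, hβ4, hrel, hwu, hδ⟩ := hr μ hμ
      exact ⟨α, β, δ, (D₀ : A) * w, hα, hβ, hαu, hβ4, hrel,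
        ((isUnit_intCast_iff hA _).2 hD₀).mul hwu, by rw [hδ, hΔD, pow_add]; push_cast; ring⟩
  exact ⟨W', hne, hss', h2', hv2, hirr, hC, h5, h3⟩

end Fermat.Agent.SwitchFive
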